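import Fermat.Agent.Red.HKComm.Skeleton
import Fermat.Agent.Red.HKMod
import Fermat.Agent.S24.ModFinal
import Fermat.Agent.S24.FICore
import Fermat.Agent.S24.FIWrap
import Fermat.Agent.S24.OrbitPlaces
import Fermat.Agent.S24.DegLe
import Fermat.Agent.S24.EmbPoint

/-!
# P-RED, module HK-COMM, task DEG: `[F_M : F_N] * ψ(N) = ψ(M)`

Tower law along the inclusion `F_N → F_M` and `[F_M : K(j)] = ψ(M)` (`IfaceFin`, from the S24
assembly).
-/

set_option autoImplicit false

open AlgebraicCurve ModularCurve IntermediateField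

noncomputable section

namespace Fermat.Agent.Red.HKComm

open Fermat.Agent.S24

/-- tower law along an embedding. -/
theorem h52deg_finrank_tower {K F F' : Type*} [Field K] [Field F] [Field F'] [Algebra K F]
    [Algebra K F'] (φ : F →ₐ[K] F') (x : F) :
    Module.finrank K⟮φ x⟯ F' = Module.finrank K⟮x⟯ F * finrankAlong K φ := by
  let _ := algebraAlong φ
  let _ : Algebra K⟮x⟯ F' := (φ.toRingHom.comp (algebraMap K⟮x⟯ F)).toAlgebra
  have : IsScalarTower K⟮x⟯ F F' := IsScalarTower.of_algebraMap_eq fun _ => rfl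
  have h1 : Module.finrank K⟮x⟯ F * Module.finrank F F' = Module.finrank K⟮x⟯ F' :=
    Module.finrank_mul_finrank K⟮x⟯ F F'
  have hmap : IntermediateField.map φ K⟮x⟯ = K⟮φ x⟯ := by
    rw [IntermediateField.adjoin_map, Set.image_singleton]
  let i : K⟮x⟯ ≃+* K⟮φ x⟯ :=
    ((IntermediateField.equivMap K⟮x⟯ φ).trans (IntermediateField.equivOfEq hmap)).toRingEquiv
  have h2 : Module.finrank K⟮x⟯ F' = Module.finrank K⟮φ x⟯ F' :=
    Algebra.finrank_eq_of_equiv_equiv i (RingEquiv.refl F') (by
      ext z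
      rfl)
  show _ = Module.finrank K⟮x⟯ F * Module.finrank F F'
  rw [h1, h2]

/-- `IfaceFin` (from the S24 assembly). -/
theorem h52deg_ifaceFin (N : ℕ) [NeZero N] : IfaceFin N := by
  have hZ : ZerosStatement Kbar (FF N) :=
    fun y hy hfin => @FICore.fi_zeros Kbar (FF N) _ _ _ _ _ y hy hfin
  have hFIgen := fi_general_of_zeros hZ
  have htr := transcendental_jBar N
  have hle := finrank_le_index N
  have hFI : FIStatement Kbar (FF N) (jBar N) := hFIgen (jBar N) htr hle.1
  have hM1c : M1cStatement N := fun t n hfi hdeg inst g h hh E hn =>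
    @card_zeroPlaces_eq_card_orbits Kbar (FF N) _ _ _ t n hfi hdeg _ _ _ inst _ g h hh E hn
  exact ifaceFin_of N htr hle hFI hM1c (exists_embFamily_generic N)

/-- **DEG.** -/
theorem h52deg_deg : DegStatement := by
  intro N M _ _ h
  have h1 := h52deg_finrank_tower (degenE 1 h) (jBar N)
  have hj : degenE 1 h (jBar N) = jBar M := degenE_one_jBar h
  rw [(h52deg_ifaceFin N).2.2] at h1
  rw [mul_comm, ← h1, ← (h52deg_ifaceFin M).2.2]
  congr 1 <;> rw [hj]

end Fermat.Agent.Red.HKComm
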