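import Fermat.Agent.Red.HKComm.Skeleton
import Fermat.Agent.S24.DegLe
import Fermat.Agent.S24.EmbPointCore
import Fermat.Agent.S24.TayAx

/-!
# P-RED, module HK-COMM, task GEN: `F_M = K(j(q), j(q^M))`

The germ embeddings `E_g : F_M → ℂ((s))` (`g` running through representatives of
`SL(2, ℤ) ⧸ Γ₀(M)`) agree on `K(j)` and take pairwise distinct values at `j_M = j(q^M)`.  Hence
the minimal polynomial of `j_M` over `K(j)` has degree at least the index of `Γ₀(M)`, which is an
upper bound for `[F_M : K(j)]`.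
-/

set_option autoImplicit false

open ModularCurve AlgebraicCurve UpperHalfPlane CongruenceSubgroup IntermediateField
open scoped MatrixGroups Manifold

noncomputable section

namespace Fermat.Agent.Red.HKComm

open Fermat.Agent.S24
open Fermat.Agent.S28 (HasTExp jAn jAt)

variable (M : ℕ) [NeZero M]

/-- the germ embedding at the point `i` attached to `g`. -/
def hkgen_E (g : SL(2, ℤ)) : FF M →+* LaurentSeries ℂ :=
  h23_E M h25_tayAxioms UpperHalfPlane.I g

/-- equality of the germs of `j(Mτ)` forces the same coset. -/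
theorem hkgen_mem_of_germOf_eq {g g' : SL(2, ℤ)}
    (h1 : germOf UpperHalfPlane.I g (jAt M) = germOf UpperHalfPlane.I g' (jAt M)) :
    g⁻¹ * g' ∈ Gamma0 M := by
  have hT := h25_tayAxioms
  rw [germOf, germOf] at h1
  have h2 := HahnSeries.ofPowerSeries_injective (Γ := ℤ) (R := ℂ) h1
  have hm : MDiff (fun τ => jAt M (g⁻¹ • τ)) :=
    h25_mdiff_comp_smul (Fermat.Agent.S28.holo_jAt M) g⁻¹
  have hm' : MDiff (fun τ => jAt M (g'⁻¹ • τ)) :=
    h25_mdiff_comp_smul (Fermat.Agent.S28.holo_jAt M) g'⁻¹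
  have hcst : MDiff (fun _ : ℍ => (-1 : ℂ)) := mdifferentiable_const
  have hneg : MDiff ((fun _ : ℍ => (-1 : ℂ)) * (fun τ : ℍ => jAt M (g'⁻¹ • τ))) :=
    hcst.mul hm'
  have h3 : tayAt UpperHalfPlane.I ((fun τ : ℍ => jAt M (g⁻¹ • τ)) +
      (fun _ : ℍ => (-1 : ℂ)) * (fun τ : ℍ => jAt M (g'⁻¹ • τ))) = 0 := by
    rw [hT.add hm hneg, hT.mul hcst hm', hT.const, h2]
    simp
  have h4 := (hT.eq_zero_iff (hm.add hneg) UpperHalfPlane.I).mp h3
  have h5 : ∀ τ : ℍ, jAt M (g⁻¹ • τ) = jAt M (g'⁻¹ • τ) := by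
    intro τ
    have := congrFun h4 τ
    simp only [Pi.add_apply, Pi.mul_apply, Pi.zero_apply] at this
    linear_combination this
  apply mem_Gamma0_of_jAt_smul_eq M
  intro τ
  have := h5 (g' • τ)
  rw [inv_smul_smul] at this
  rw [mul_smul]
  exact this

/-- the germ embeddings agree on `K(j)`. -/
theorem hkgen_agree (g g' : SL(2, ℤ)) (x : FF M) (hx : x ∈ Kbar⟮jBar M⟯) :
    hkgen_E M g x = hkgen_E M g' x := by
  induction hx using IntermediateField.adjoin_induction with
  | mem y hy =>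
    rw [Set.mem_singleton_iff] at hy
    subst hy
    rw [hkgen_E, hkgen_E, h23_E_jBar, h23_E_jBar]
  | algebraMap a =>
    exact (h23_E_cst M h25_tayAxioms UpperHalfPlane.I g a).trans
      (h23_E_cst M h25_tayAxioms UpperHalfPlane.I g' a).symm
  | add y z _ _ hy hz => rw [map_add, map_add, hy, hz]
  | inv y _ hy => rw [map_inv₀, map_inv₀, hy]
  | mul y z _ _ hy hz => rw [map_mul, map_mul, hy, hz]

/-- the value of the germ embedding of a coset at `j(q^M)`. -/
def hkgen_c (x : SL(2, ℤ) ⧸ Gamma0 M) : LaurentSeries ℂ :=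
  hkgen_E M (Quotient.out x) (jdBar M M dvd_rfl)

theorem hkgen_c_injective : Function.Injective (hkgen_c M) := by
  intro x y h
  have h1 : germOf UpperHalfPlane.I (Quotient.out x) (jAt M)
      = germOf UpperHalfPlane.I (Quotient.out y) (jAt M) := by
    rw [← h23_E_jN M h25_tayAxioms UpperHalfPlane.I (Quotient.out x),
      ← h23_E_jN M h25_tayAxioms UpperHalfPlane.I (Quotient.out y)]
    exact h
  have h2 := hkgen_mem_of_germOf_eq M h1
  have h3 : ((Quotient.out x : SL(2, ℤ)) : SL(2, ℤ) ⧸ Gamma0 M) = (Quotient.out y : SL(2, ℤ)) :=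
    QuotientGroup.eq.mpr h2
  rwa [QuotientGroup.out_eq', QuotientGroup.out_eq'] at h3

/-- the common restriction of the germ embeddings to `K(j)`. -/
def hkgen_ι : Kbar⟮jBar M⟯ →+* LaurentSeries ℂ :=
  (hkgen_E M 1).comp (algebraMap Kbar⟮jBar M⟯ (FF M))

theorem hkgen_comp (g : SL(2, ℤ)) :
    (hkgen_E M g).comp (algebraMap Kbar⟮jBar M⟯ (FF M)) = hkgen_ι M := by
  exact RingHom.ext fun x => hkgen_agree M g 1 _ x.2

/-- the values `c x` are roots of the minimal polynomial of `j(q^M)` over `K(j)`. -/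
theorem hkgen_root (x : SL(2, ℤ) ⧸ Gamma0 M) :
    ((minpoly Kbar⟮jBar M⟯ (jdBar M M dvd_rfl)).map (hkgen_ι M)).IsRoot (hkgen_c M x) := by
  rw [Polynomial.IsRoot, Polynomial.eval_map, ← hkgen_comp M (Quotient.out x), hkgen_c,
    ← Polynomial.hom_eval₂, ← Polynomial.aeval_def, minpoly.aeval, map_zero]

/-- **GEN.** -/
theorem gen : GenStatement := by
  intro M _
  classical
  obtain ⟨hfd, hle⟩ := finrank_le_index M
  set y : FF M := jdBar M M dvd_rfl with hy
  have hint : IsIntegral Kbar⟮jBar M⟯ y := IsIntegral.of_finite _ _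
  have hfi : Finite (SL(2, ℤ) ⧸ Gamma0 M) := Subgroup.finite_quotient_of_finiteIndex
  have hft : Fintype (SL(2, ℤ) ⧸ Gamma0 M) := Fintype.ofFinite _
  -- the number of cosets is at most the degree of the minimal polynomial
  have hP0 : (minpoly Kbar⟮jBar M⟯ y).map (hkgen_ι M) ≠ 0 := by
    rw [Ne, Polynomial.map_eq_zero]
    exact minpoly.ne_zero hint
  have h1 : (Gamma0 M).index ≤ (minpoly Kbar⟮jBar M⟯ y).natDegree := by
    have hsub : (Finset.univ.image (hkgen_c M)).val ⊆
        ((minpoly Kbar⟮jBar M⟯ y).map (hkgen_ι M)).roots := by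
      intro z hz
      rw [Finset.mem_val, Finset.mem_image] at hz
      obtain ⟨x, _, rfl⟩ := hz
      rw [Polynomial.mem_roots hP0]
      exact hkgen_root M x
    have h2 := Polynomial.card_le_degree_of_subset_roots hsub
    rw [Finset.card_image_of_injective _ (hkgen_c_injective M), Finset.card_univ,
      Polynomial.natDegree_map] at h2
    rw [Subgroup.index, Nat.card_eq_fintype_card]
    exact h2
  -- hence `K(j)(y) = ⊤`
  have h2 : Module.finrank Kbar⟮jBar M⟯ Kbar⟮jBar M⟯⟮y⟯ = (minpoly Kbar⟮jBar M⟯ y).natDegree :=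
    IntermediateField.adjoin.finrank hint
  have h3 : Kbar⟮jBar M⟯⟮y⟯ = ⊤ := by
    apply IntermediateField.eq_of_le_of_finrank_le le_top
    rw [IntermediateField.finrank_top', h2]
    exact hle.trans h1
  have h4 := IntermediateField.adjoin_adjoin_left Kbar ({jBar M} : Set (FF M)) ({y} : Set (FF M))
  rw [eq_top_iff]
  intro z _
  have hz : z ∈ Kbar⟮jBar M⟯⟮y⟯ := by rw [h3]; exact IntermediateField.mem_top
  have hz' : z ∈ (Kbar⟮jBar M⟯⟮y⟯).restrictScalars Kbar := hz
  rw [h4, Set.singleton_union] at hz'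
  exact hz'

end Fermat.Agent.Red.HKComm
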