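import Fermat.Agent.Red.HKComm.Skeleton
import Fermat.Agent.S21.C1.PrimCount

/-!
# P-RED, module HK-COMM, task PSI (hedge by helper40)

`hk40_psi : PsiStatement`, i.e. `ψ(Npr) ψ(N) = ψ(Np) ψ(Nr)` for primes `p ≠ r` and `N > 0`.

Proof: write `N = p^a r^b m` with `m` prime to `p r`; by multiplicativity all four values are
`ψ(p^i) ψ(r^j) ψ(m)` and the identity is `ring`.
-/

set_option autoImplicit false

open ModularCurve

namespace Fermat.Agent.Red.HKComm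

/-- `ψ(p^i r^j m) = ψ(p^i) ψ(r^j) ψ(m)` for distinct primes `p, r` not dividing `m`. -/
theorem hk40_psi_split {p r m : ℕ} (hp : p.Prime) (hr : r.Prime) (hpr : p ≠ r) (hpm : ¬ p ∣ m)
    (hrm : ¬ r ∣ m) (i j : ℕ) :
    dedekindPsi (p ^ i * (r ^ j * m)) =
      dedekindPsi (p ^ i) * (dedekindPsi (r ^ j) * dedekindPsi m) := by
  have h1 : (r ^ j).Coprime m := Nat.Coprime.pow_left j ((Nat.Prime.coprime_iff_not_dvd hr).mpr hrm)
  have h2 : (p ^ i).Coprime (r ^ j * m) := by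
    refine Nat.Coprime.pow_left i (Nat.Coprime.mul_right ?_ ?_)
    · exact Nat.Coprime.pow_right j ((Nat.coprime_primes hp hr).mpr hpr)
    · exact (Nat.Prime.coprime_iff_not_dvd hp).mpr hpm
  rw [Fermat.Agent.S21.C1.dedekindPsi_mul h2, Fermat.Agent.S21.C1.dedekindPsi_mul h1]

/-- **PSI.** -/
theorem hk40_psi : PsiStatement := by
  intro N p r hN hp hr hpr
  obtain ⟨a, n₁, hpn₁, hN₁⟩ := Nat.exists_eq_pow_mul_and_not_dvd hN.ne' p hp.ne_one
  have hn₁ : n₁ ≠ 0 := by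
    rintro rfl
    exact hpn₁ (dvd_zero p)
  obtain ⟨b, m, hrm, hn₁'⟩ := Nat.exists_eq_pow_mul_and_not_dvd hn₁ r hr.ne_one
  have hpm : ¬ p ∣ m := fun h => hpn₁ (hn₁' ▸ Dvd.dvd.mul_left h (r ^ b))
  have e0 : N = p ^ a * (r ^ b * m) := by rw [hN₁, hn₁']
  have e1 : N * p = p ^ (a + 1) * (r ^ b * m) := by rw [e0]; ring
  have e2 : N * r = p ^ a * (r ^ (b + 1) * m) := by rw [e0]; ring
  have e3 : N * p * r = p ^ (a + 1) * (r ^ (b + 1) * m) := by rw [e0]; ring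
  rw [e3, e1, e2]
  conv_lhs => rw [e0]
  rw [hk40_psi_split hp hr hpr hpm hrm, hk40_psi_split hp hr hpr hpm hrm,
    hk40_psi_split hp hr hpr hpm hrm, hk40_psi_split hp hr hpr hpm hrm]
  ring

end Fermat.Agent.Red.HKComm
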