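import Fermat.Agent.Red.HKComm.Skeleton

/-!
# P-RED, module HK-COMM, task SQ: linear disjointness of the modular square

`square : GenStatement → DegStatement → PsiStatement → SquareStatement`.

Pure glue: the degrees are compared through `[F_M : F_N] ψ(N) = ψ(M)` and the multiplicativity
`ψ(Npr) ψ(N) = ψ(Np) ψ(Nr)`; generation follows from `F_M = K(j, j_M)` since `j` lies in the range
of the inclusion `F_{Np} → F_{Npr}` and `j_M = j(q^{Nrp})` is the image of `j(q^{Nr})` under
`q ↦ q^p`.
-/

set_option autoImplicit false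

open AlgebraicCurve ModularCurve IntermediateField

noncomputable section

namespace Fermat.Agent.Red.HKComm

open Fermat.Agent.S24 (Kbar FF jBar jdBar)

/-- `ψ(N) ≠ 0` for `N ≠ 0` (the divisor `1` contributes `N`). -/
theorem hksq_dedekindPsi_ne_zero (N : ℕ) (hN : N ≠ 0) : dedekindPsi N ≠ 0 := by
  have h1 : (1 : ℕ) ∈ N.divisors.filter (fun d => Squarefree d) := by
    rw [Finset.mem_filter]
    exact ⟨Nat.one_mem_divisors.mpr hN, squarefree_one⟩
  have h2 : N / 1 ≤ dedekindPsi N := by
    rw [dedekindPsi]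
    exact Finset.single_le_sum (f := fun d => N / d) (fun _ _ => Nat.zero_le _) h1
  rw [Nat.div_one] at h2
  exact fun h => hN (Nat.le_zero.mp (h ▸ h2))

/-- `jdBar` only depends on the value of the index. -/
theorem hksq_jdBar_congr (M : ℕ) {d d' : ℕ} [NeZero d] [NeZero d'] (h : d = d') (hd : d ∣ M)
    (hd' : d' ∣ M) : jdBar M d hd = jdBar M d' hd' := by
  subst h
  rfl

/-- the degree part of the square. -/
theorem hksq_degree (hD : DegStatement) (hP : PsiStatement) (N p r : ℕ) [NeZero N]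
    [NeZero (N * r)] [NeZero (N * p)] [NeZero (N * p * r)] (hp : p.Prime) (hr : r.Prime)
    (hpr : p ≠ r) (hα : N * 1 ∣ N * r) (ha : N * p * 1 ∣ N * p * r) :
    finrankAlong Kbar (degenE 1 ha) = finrankAlong Kbar (degenE 1 hα) := by
  have h1 := hD (N * p) (N * p * r) ha
  have h2 := hD N (N * r) hα
  have h3 := hP N p r (Nat.pos_of_ne_zero (NeZero.ne N)) hp hr hpr
  have hN : dedekindPsi N ≠ 0 := hksq_dedekindPsi_ne_zero N (NeZero.ne N)
  have hNp : dedekindPsi (N * p) ≠ 0 := hksq_dedekindPsi_ne_zero _ (NeZero.ne (N * p))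
  rw [← h1, ← h2] at h3
  have h4 : finrankAlong Kbar (degenE 1 ha) * (dedekindPsi (N * p) * dedekindPsi N) =
      finrankAlong Kbar (degenE 1 hα) * (dedekindPsi (N * p) * dedekindPsi N) := by
    calc finrankAlong Kbar (degenE 1 ha) * (dedekindPsi (N * p) * dedekindPsi N)
        = finrankAlong Kbar (degenE 1 ha) * dedekindPsi (N * p) * dedekindPsi N := by ring
      _ = dedekindPsi (N * p) * (finrankAlong Kbar (degenE 1 hα) * dedekindPsi N) := h3
      _ = finrankAlong Kbar (degenE 1 hα) * (dedekindPsi (N * p) * dedekindPsi N) := by ring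
  exact Nat.eq_of_mul_eq_mul_right (Nat.pos_of_ne_zero (mul_ne_zero hNp hN)) h4

/-- the generation part of the square. -/
theorem hksq_generation (hG : GenStatement) (N₁ N₂ M p : ℕ) [NeZero N₁] [NeZero N₂] [NeZero M]
    [NeZero p] (hM : N₁ * p = M) (ha : N₂ * 1 ∣ M) (hb : N₁ * p ∣ M) :
    (degenE 1 ha).fieldRange ⊔ (degenE p hb).fieldRange = ⊤ := by
  rw [eq_top_iff, ← hG M, IntermediateField.adjoin_le_iff]
  rintro x hx
  rcases hx with rfl | hx
  · refine (le_sup_left : (degenE 1 ha).fieldRange ≤ _) ?_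
    refine ⟨jBar N₂, ?_⟩
    show degenE 1 ha (jBar N₂) = jBar M
    exact degenE_one_jBar ha
  · rw [Set.mem_singleton_iff] at hx
    subst hx
    refine (le_sup_right : (degenE p hb).fieldRange ≤ _) ?_
    refine ⟨jdBar N₁ N₁ dvd_rfl, ?_⟩
    show degenE p hb (jdBar N₁ N₁ dvd_rfl) = jdBar M M dvd_rfl
    rw [degenE_jdBar p hb N₁ dvd_rfl hb]
    exact hksq_jdBar_congr M hM hb dvd_rfl

/-- **SQ.** Linear disjointness of the modular square, from `GEN`, `DEG` and `PSI`. -/
theorem square (hG : GenStatement) (hD : DegStatement) (hP : PsiStatement) : SquareStatement := by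
  intro N N₁ N₂ M p r _ _ _ _ _ hp hr hpr h1 h2 h3 hα ha hb
  subst h1 h2 h3
  refine ⟨hksq_degree hD hP N p r hp hr hpr hα ha, ?_⟩
  exact hksq_generation hG (N * r) (N * p) (N * p * r) p (by ring) ha hb

end Fermat.Agent.Red.HKComm
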