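import Fermat.Agent.Red.HKComm.Assembly
import Fermat.Agent.Red.HKComm.Square
import Fermat.Agent.Red.HKComm.Gen
import Fermat.Agent.Red.HKComm.Deg52
import Fermat.Agent.Red.HKComm.Psi40
import Fermat.Agent.Red.HKGal
import Fermat.Agent.S29.Skeleton

/-!
# P-RED, module HK-COMM: the Hecke operators on `J₀(N)` commute

* `heckeOperatorsCommuteBar N : ModularCurve.HeckeOperatorsCommuteBar N` (unconditional);
* `heckeGaloisCommute N : Fermat.Agent.S29.HeckeGaloisCommute N` (input IN-HECKE of P-GALREP):
  the Hecke operators commute with each other and with the Galois action.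

Contributors: helper52 (architecture, base change, assembly), helper43 (weak approximation,
towers, norm formula), helper86 (norm compatibility), helper40 (square, ψ arithmetic),
helper34 (generation), helper48 (Hecke inputs, Galois equivariance).
-/

set_option autoImplicit false

open ModularCurve

namespace Fermat.Agent.Red.HKComm

/-- **HK-COMM.**  The Hecke operators on `J₀(N)` commute. -/
theorem heckeOperatorsCommuteBar (N : ℕ) [NeZero N] : HeckeOperatorsCommuteBar N :=
  heckeOperatorsCommuteBar_of (square gen h52deg_deg hk40_psi) N

/-- **IN-HECKE.**  The Hecke operators on `J₀(N)` commute with each other and with Galois. -/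
theorem heckeGaloisCommute (N : ℕ) [NeZero N] : Fermat.Agent.S29.HeckeGaloisCommute N :=
  ⟨heckeOperatorsCommuteBar N, fun ℓ σ x => Fermat.Agent.Red.HKGal.heckeOperatorBar_galois N ℓ σ x⟩

end Fermat.Agent.Red.HKComm
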