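import Fermat.Agent.Red.HKComm.Skeleton
import Fermat.Agent.Red.HKMod
import Fermat.Agent.S24.ModFinal
import Fermat.Agent.S24.FICore
import Fermat.Agent.S24.FIWrap
import Fermat.Agent.S24.OrbitPlaces
import Fermat.Agent.S24.DegLe
import Fermat.Agent.S24.EmbPoint
import Fermat.Agent.S21.C1.PrimCount

/-!
# P-RED, module HK-COMM, task DEG: degrees in the modular tower, and the `ψ`-identity

* `hkdeg_ifaceFin N`            : `IfaceFin N`, i.e. `[F_N : K(j)] = ψ(N)` (the S24 fact, standalone).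
* `hkdeg_finrank_adjoin_map`    : for `φ : F →ₐ[K] F'` and `x : F`,
  `[F' : K(φ x)] = [F : K(x)] * [F' : φ F]`  (tower law; no finiteness hypothesis needed).
* `hkdeg_finiteAlong_degenE_one`: `F_M` is finite along the inclusion `F_N → F_M`.
* `deg : DegStatement`          : `[F_M : F_N] * ψ(N) = ψ(M)` for `N ∣ M`.
* `hkdeg_psi_mul_prime`         : `ψ(N p) = ψ(N) * (if p ∣ N then p else p + 1)`.
* `psi : PsiStatement`          : `ψ(N p r) ψ(N) = ψ(N p) ψ(N r)` for primes `p ≠ r`.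
-/

set_option autoImplicit false
set_option linter.style.haveILetI false

open AlgebraicCurve ModularCurve IntermediateField

noncomputable section

namespace Fermat.Agent.Red.HKComm

open Fermat.Agent.S24 (Kbar FF jBar jdBar)

/-! ## `IfaceFin`, standalone -/

/-- **(MOD-fin)** `j` is transcendental, `F_N / K(j)` is finite of degree `ψ(N)`. -/
theorem hkdeg_ifaceFin (N : ℕ) [NeZero N] : Fermat.Agent.S24.IfaceFin N := by
  have hZ : Fermat.Agent.S24.ZerosStatement Kbar (FF N) :=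
    fun y hy hfin => @Fermat.Agent.S24.FICore.fi_zeros Kbar (FF N) _ _ _ _ _ y hy hfin
  have hFIgen := Fermat.Agent.S24.fi_general_of_zeros hZ
  have htr := Fermat.Agent.S24.transcendental_jBar N
  have hle := Fermat.Agent.S24.finrank_le_index N
  have hFI : Fermat.Agent.S24.FIStatement Kbar (FF N) (jBar N) := hFIgen (jBar N) htr hle.1
  have hM1c : Fermat.Agent.S24.M1cStatement N := fun t n hfi hdeg inst g h hh E hn =>
    @Fermat.Agent.S24.card_zeroPlaces_eq_card_orbits Kbar (FF N) _ _ _ t n hfi hdeg _ _ _ inst _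
      g h hh E hn
  exact Fermat.Agent.S24.ifaceFin_of N htr hle hFI hM1c
    (Fermat.Agent.S24.exists_embFamily_generic N)

/-- `[F_N : K(j)] = ψ(N)`. -/
theorem hkdeg_finrank_jBar (N : ℕ) [NeZero N] :
    Module.finrank Kbar⟮jBar N⟯ (FF N) = dedekindPsi N :=
  (hkdeg_ifaceFin N).2.2

/-! ## The tower law along a homomorphism of fields -/

section General

variable {K F F' : Type*} [Field K] [Field F] [Field F'] [Algebra K F] [Algebra K F']

/-- `φ` maps `K(x)` isomorphically onto `K(φ x)`. -/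
def hkdeg_adjoinEquiv (φ : F →ₐ[K] F') (x : F) : K⟮x⟯ ≃ₐ[K] K⟮φ x⟯ :=
  (IntermediateField.equivMap K⟮x⟯ φ).trans
    (IntermediateField.equivOfEq (by rw [IntermediateField.adjoin_map, Set.image_singleton]))

@[simp]
theorem hkdeg_coe_adjoinEquiv (φ : F →ₐ[K] F') (x : F) (y : K⟮x⟯) :
    ((hkdeg_adjoinEquiv φ x y : K⟮φ x⟯) : F') = φ (y : F) :=
  rfl

/-- **Tower law along `φ`.**  `[F' : K(φ x)] = [F : K(x)] * [F' : φ F]`. -/
theorem hkdeg_finrank_adjoin_map (φ : F →ₐ[K] F') (x : F) :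
    Module.finrank K⟮φ x⟯ F' = Module.finrank K⟮x⟯ F * finrankAlong K φ := by
  letI := algebraAlong φ
  letI : Algebra K⟮x⟯ F' := ((algebraMap F F').comp (algebraMap K⟮x⟯ F)).toAlgebra
  haveI : IsScalarTower K⟮x⟯ F F' := IsScalarTower.of_algebraMap_eq fun _ => rfl
  have htower : Module.finrank K⟮x⟯ F * Module.finrank F F' = Module.finrank K⟮x⟯ F' :=
    Module.finrank_mul_finrank K⟮x⟯ F F'
  have he : Module.finrank K⟮x⟯ F' = Module.finrank K⟮φ x⟯ F' :=
    Algebra.finrank_eq_of_equiv_equiv (hkdeg_adjoinEquiv φ x).toRingEquiv (RingEquiv.refl F') (by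
      ext y
      rfl)
  show _ = _ * Module.finrank F F'
  rw [htower, he]

end General

/-! ## DEG -/

/-- `F_M` is finite along the inclusion `F_N → F_M`. -/
theorem hkdeg_finiteAlong_degenE_one {N M : ℕ} [NeZero N] [NeZero M] (h : N * 1 ∣ M) :
    FiniteAlong Kbar (degenE 1 h) := by
  haveI : FiniteDimensional Kbar⟮degenE 1 h (jBar N)⟯ (FF M) := by
    rw [degenE_one_jBar]
    exact Fermat.Agent.Red.HKMod.finiteDimensional_jBar M
  exact Fermat.Agent.Red.HKMod.finiteAlong_of_finiteDimensional_adjoin (degenE 1 h) (jBar N)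

/-- `F_M` is finite along every degeneracy map `F_N → F_M`. -/
theorem hkdeg_finiteAlong_degenE {N M : ℕ} [NeZero N] [NeZero M] (e : ℕ) [NeZero e]
    (h : N * e ∣ M) : FiniteAlong Kbar (degenE e h) := by
  haveI : FiniteDimensional Kbar⟮degenE e h (jBar N)⟯ (FF M) :=
    Fermat.Agent.Red.HKMod.finiteDimensional_adjoin_FF M _
      (Fermat.Agent.Red.HKMod.transcendental_map (degenE e h)
        (Fermat.Agent.S24.transcendental_jBar N))
  exact Fermat.Agent.Red.HKMod.finiteAlong_of_finiteDimensional_adjoin (degenE e h) (jBar N)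

/-- **DEG.** `[F_M : F_N] * ψ(N) = ψ(M)` for `N ∣ M`. -/
theorem deg : DegStatement := by
  intro N M _ _ h
  have key := hkdeg_finrank_adjoin_map (degenE 1 h) (jBar N)
  rw [degenE_one_jBar, hkdeg_finrank_jBar, hkdeg_finrank_jBar] at key
  rw [key, mul_comm]

/-- the degree of the inclusion `F_N → F_M` is positive. -/
theorem hkdeg_finrankAlong_pos {N M : ℕ} [NeZero N] [NeZero M] (h : N * 1 ∣ M) :
    0 < finrankAlong Kbar (degenE 1 h) := by
  letI := algebraAlong (degenE 1 h)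
  haveI : Module.Finite (FF N) (FF M) := hkdeg_finiteAlong_degenE_one h
  exact Module.finrank_pos

/-! ## PSI -/

/-- `ψ(p^(k+1)) = p^(k+1) + p^k`. -/
theorem hkdeg_psi_prime_pow_succ {p : ℕ} (hp : p.Prime) (k : ℕ) :
    dedekindPsi (p ^ (k + 1)) = p ^ (k + 1) + p ^ k := by
  have h := Fermat.Agent.S21.C1.dedekindPsi_prime_pow hp (Nat.succ_pos k)
  rwa [Nat.succ_sub_one] at h

/-- `ψ(N p) = ψ(N) * (p or p + 1)` according as `p ∣ N` or not. -/
theorem hkdeg_psi_mul_prime (N p : ℕ) (hN : 0 < N) (hp : p.Prime) :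
    dedekindPsi (N * p) = dedekindPsi N * (if p ∣ N then p else p + 1) := by
  obtain ⟨a, m, hm, rfl⟩ := Nat.exists_eq_pow_mul_and_not_dvd hN.ne' p hp.ne_one
  have hcop : ∀ k : ℕ, (p ^ k).Coprime m := fun k =>
    Nat.Coprime.pow_left k ((Nat.Prime.coprime_iff_not_dvd hp).mpr hm)
  have h1 : p ^ a * m * p = p ^ (a + 1) * m := by ring
  rw [h1, Fermat.Agent.S21.C1.dedekindPsi_mul (hcop (a + 1)),
    Fermat.Agent.S21.C1.dedekindPsi_mul (hcop a), hkdeg_psi_prime_pow_succ hp a]
  rcases Nat.eq_zero_or_pos a with ha | ha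
  · subst ha
    have hnd : ¬ p ∣ p ^ 0 * m := by simpa using hm
    rw [if_neg hnd]
    simp only [pow_zero, dedekindPsi_one]
    ring
  · have hd : p ∣ p ^ a * m := Dvd.dvd.mul_right (dvd_pow_self p ha.ne') m
    obtain ⟨b, rfl⟩ : ∃ b, a = b + 1 := ⟨a - 1, by omega⟩
    rw [if_pos hd, hkdeg_psi_prime_pow_succ hp b]
    ring

/-- **PSI.** `ψ(N p r) ψ(N) = ψ(N p) ψ(N r)` for primes `p ≠ r`. -/
theorem psi : PsiStatement := by
  intro N p r hN hp hr hpr
  have hiff : r ∣ N * p ↔ r ∣ N := by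
    constructor
    · intro h
      rcases (Nat.Prime.dvd_mul hr).mp h with h | h
      · exact h
      · exact absurd ((Nat.prime_dvd_prime_iff_eq hr hp).mp h).symm hpr
    · intro h
      exact Dvd.dvd.mul_right h p
  rw [hkdeg_psi_mul_prime (N * p) r (Nat.mul_pos hN hp.pos) hr, hkdeg_psi_mul_prime N r hN hr]
  simp only [hiff]
  ring

end Fermat.Agent.Red.HKComm
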