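import Mathlib
import Fermat.Prelude.Def_AlgebraicCurve_Correspondence

/-!
# P-RED, module HK-COMM: base change for divisors in a commutative square of function fields

For a commutative square of function fields over `K`

```
      α
  F ----> F₁
  |       |
β |       | b
  v       v
  F₂ ---> Z
      a
```

with norm formulas along `α` and `a`, weak approximation along `α`, all inertia degrees one and
norm compatibility `N_a (b t) = β (N_α t)` (linear disjointness), we prove

`β^* α_* = a_* b^*`  on divisors of `F₁`   (`hkbc_baseChange`).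
-/

set_option autoImplicit false

open AlgebraicCurve

noncomputable section

namespace Fermat.Agent.Red.HKComm

section Basic

variable {K F F' F'' : Type*} [Field K] [Field F] [Field F'] [Field F'']
  [Algebra K F] [Algebra K F'] [Algebra K F'']

theorem hkbc_mem_restrictAlong (φ : F →ₐ[K] F') (hφ : φ.toRingHom.IsIntegral)
    (w : Place K F') (f : F) :
    f ∈ (w.restrictAlong φ hφ).toValuationSubring ↔ φ f ∈ w.toValuationSubring :=
  Iff.rfl

/-- restriction of places is functorial. -/
theorem hkbc_restrictAlong_comp (φ : F →ₐ[K] F') (ψ : F' →ₐ[K] F'')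
    (hφ : φ.toRingHom.IsIntegral) (hψ : ψ.toRingHom.IsIntegral)
    (hψφ : (ψ.comp φ).toRingHom.IsIntegral) (W : Place K F'') :
    W.restrictAlong (ψ.comp φ) hψφ = (W.restrictAlong ψ hψ).restrictAlong φ hφ :=
  Place.ext (SetLike.ext fun _ => Iff.rfl)

/-- the coefficient of a push-forward when all inertia degrees are one. -/
theorem hkbc_pushforwardAlong_single_of_inertiaDeg (φ : F →ₐ[K] F')
    (hφ : φ.toRingHom.IsIntegral) (hf : ∀ w : Place K F', w.inertiaDegAlong φ hφ = 1)
    (w : Place K F') (n : ℤ) :
    Divisor.pushforwardAlong φ hφ (Finsupp.single w n)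
      = Finsupp.single (w.restrictAlong φ hφ) n := by
  rw [Divisor.pushforwardAlong_single, hf w, Nat.cast_one, mul_one]

end Basic

section Square

variable {K F F₁ F₂ Z : Type*} [Field K] [Field F] [Field F₁] [Field F₂] [Field Z]
  [Algebra K F] [Algebra K F₁] [Algebra K F₂] [Algebra K Z]
  [HasPrincipalDivisors K F₁] [HasPrincipalDivisors K F₂] [HasPrincipalDivisors K Z]
  (α : F →ₐ[K] F₁) (β : F →ₐ[K] F₂) (a : F₂ →ₐ[K] Z) (b : F₁ →ₐ[K] Z)
  (hα : α.toRingHom.IsIntegral) (hβ : β.toRingHom.IsIntegral)
  (ha : a.toRingHom.IsIntegral) (hb : b.toRingHom.IsIntegral)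
  (hcomm : a.comp β = b.comp α)

omit [HasPrincipalDivisors K F₁] [HasPrincipalDivisors K F₂] [HasPrincipalDivisors K Z] in
include hcomm in
/-- in a commutative square the two restrictions to the bottom field agree. -/
theorem hkbc_restrict_square (W : Place K Z) :
    (W.restrictAlong a ha).restrictAlong β hβ = (W.restrictAlong b hb).restrictAlong α hα := by
  apply Place.ext
  apply SetLike.ext
  intro f
  show a (β f) ∈ W.toValuationSubring ↔ b (α f) ∈ W.toValuationSubring
  have h : a (β f) = b (α f) := congrArg (fun g : F →ₐ[K] Z => g f) hcomm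
  rw [h]

omit [HasPrincipalDivisors K F₂] in
include hcomm in
/-- **Local base change.** -/
theorem hkbc_local
    (hNα : ∀ (v : Place K F) (f : F₁), f ≠ 0 →
      ∑ w ∈ Place.fiberAlong α hα v, w.ord f
        = v.ord (letI := algebraAlong α; Algebra.norm F f))
    (hNa : ∀ (v : Place K F₂) (f : Z), f ≠ 0 →
      ∑ W ∈ Place.fiberAlong a ha v, W.ord f
        = v.ord (letI := algebraAlong a; Algebra.norm F₂ f))
    (hWA : ∀ (v : Place K F) (w : Place K F₁), w ∈ Place.fiberAlong α hα v →
      ∃ t : F₁, t ≠ 0 ∧ w.ord t = 1 ∧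
        ∀ w' ∈ Place.fiberAlong α hα v, w' ≠ w → w'.ord t = 0)
    (hNC : ∀ t : F₁, (letI := algebraAlong a; Algebra.norm F₂ (b t))
      = β (letI := algebraAlong α; Algebra.norm F t))
    [DecidableEq (Place K F₁)]
    (w₁ : Place K F₁) (v₂ : Place K F₂)
    (hv : v₂.restrictAlong β hβ = w₁.restrictAlong α hα) :
    ∑ W ∈ Place.fiberAlong a ha v₂,
        (if W.restrictAlong b hb = w₁ then (W.ramificationIndexAlong b : ℤ) else 0)
      = (v₂.ramificationIndexAlong β : ℤ) := by
  classical
  set v : Place K F := w₁.restrictAlong α hα with hvdef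
  have hw₁ : w₁ ∈ Place.fiberAlong α hα v := Place.mem_fiberAlong.mpr rfl
  obtain ⟨t, ht0, ht1, ht⟩ := hWA v w₁ hw₁
  have hbt0 : b t ≠ 0 := by
    rw [Ne, map_eq_zero]
    exact ht0
  -- the norm formula upstairs
  have h1 := hNa v₂ (b t) hbt0
  rw [hNC t, Place.ord_restrictAlong β hβ, hv, ← hNα v t ht0] at h1
  -- the sum downstairs
  have h2 : ∑ w ∈ Place.fiberAlong α hα v, w.ord t = 1 := by
    rw [Finset.sum_eq_single_of_mem w₁ hw₁ (fun w' hw' hne => ht w' hw' hne), ht1]
  rw [h2, mul_one] at h1
  rw [← h1]
  refine Finset.sum_congr rfl fun W hW => ?_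
  have hWa : W.restrictAlong a ha = v₂ := Place.mem_fiberAlong.mp hW
  have hWb : W.restrictAlong b hb ∈ Place.fiberAlong α hα v := by
    rw [Place.mem_fiberAlong, ← hkbc_restrict_square α β a b hα hβ ha hb hcomm W, hWa, hv]
  rw [Place.ord_restrictAlong b hb]
  split_ifs with h
  · rw [h, ht1, mul_one]
  · rw [ht _ hWb h, mul_zero]

include hcomm in
/-- **Base change**: `β^* α_* = a_* b^*` on divisors. -/
theorem hkbc_baseChange
    (hNα : ∀ (v : Place K F) (f : F₁), f ≠ 0 →
      ∑ w ∈ Place.fiberAlong α hα v, w.ord f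
        = v.ord (letI := algebraAlong α; Algebra.norm F f))
    (hNa : ∀ (v : Place K F₂) (f : Z), f ≠ 0 →
      ∑ W ∈ Place.fiberAlong a ha v, W.ord f
        = v.ord (letI := algebraAlong a; Algebra.norm F₂ f))
    (hWA : ∀ (v : Place K F) (w : Place K F₁), w ∈ Place.fiberAlong α hα v →
      ∃ t : F₁, t ≠ 0 ∧ w.ord t = 1 ∧
        ∀ w' ∈ Place.fiberAlong α hα v, w' ≠ w → w'.ord t = 0)
    (hNC : ∀ t : F₁, (letI := algebraAlong a; Algebra.norm F₂ (b t))
      = β (letI := algebraAlong α; Algebra.norm F t))
    (hfα : ∀ w : Place K F₁, w.inertiaDegAlong α hα = 1)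
    (hfa : ∀ W : Place K Z, W.inertiaDegAlong a ha = 1)
    (D : Divisor K F₁) :
    Divisor.pullbackAlong β hβ (Divisor.pushforwardAlong α hα D)
      = Divisor.pushforwardAlong a ha (Divisor.pullbackAlong b hb D) := by
  classical
  induction D using Finsupp.induction with
  | zero => simp
  | single_add w₁ n D _ _ ih =>
    rw [map_add, map_add, map_add, map_add, ih]
    congr 1
    rw [hkbc_pushforwardAlong_single_of_inertiaDeg α hα hfα, Divisor.pullbackAlong_single b hb,
      map_sum]
    simp_rw [hkbc_pushforwardAlong_single_of_inertiaDeg a ha hfa]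
    ext v₂
    rw [Divisor.pullbackAlong_apply β hβ, Finsupp.finsetSum_apply]
    by_cases hv : v₂.restrictAlong β hβ = w₁.restrictAlong α hα
    · rw [hv, Finsupp.single_eq_same]
      have hloc := hkbc_local α β a b hα hβ ha hb hcomm hNα hNa hWA hNC w₁ v₂ hv
      rw [← hloc, Finset.sum_mul]
      -- both sides as sums over all places `W` with `W|_{F₁} = w₁` and `W|_{F₂} = v₂`
      have hL : ∀ W ∈ Place.fiberAlong a ha v₂,
          (if W.restrictAlong b hb = w₁ then (W.ramificationIndexAlong b : ℤ) else 0) * n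
            = if W.restrictAlong b hb = w₁ then n * (W.ramificationIndexAlong b : ℤ) else 0 := by
        intro W _
        split_ifs
        · rw [mul_comm]
        · rw [zero_mul]
      have hR : ∀ W ∈ Place.fiberAlong b hb w₁,
          (Finsupp.single (W.restrictAlong a ha) (n * (W.ramificationIndexAlong b : ℤ))) v₂
            = if W.restrictAlong a ha = v₂ then n * (W.ramificationIndexAlong b : ℤ) else 0 := by
        intro W _
        rw [Finsupp.single_apply]
      rw [Finset.sum_congr rfl hL, Finset.sum_congr rfl hR, ← Finset.sum_filter,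
        ← Finset.sum_filter]
      refine Finset.sum_congr ?_ fun _ _ => rfl
      ext W
      simp only [Finset.mem_filter, Place.mem_fiberAlong]
      exact and_comm
    · rw [Finsupp.single_eq_of_ne hv, mul_zero]
      symm
      refine Finset.sum_eq_zero fun W hW => ?_
      have hWb : W.restrictAlong b hb = w₁ := Place.mem_fiberAlong.mp hW
      rw [Finsupp.single_apply, if_neg]
      intro hWa
      apply hv
      rw [← hWa, ← hWb]
      exact hkbc_restrict_square α β a b hα hβ ha hb hcomm W

end Square

end Fermat.Agent.Red.HKComm
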