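import Mathlib
import Fermat.Prelude.Def_AlgebraicCurve_Correspondence

/-!
# HK-COMM task NC: norm compatibility under linear disjointness

Pure field theory.  In a commutative square of field embeddings

```
F  --α-->  F₁
|β         |b
v          v
F₂ --a-->  Z
```

with `[Z : F₂] = [F₁ : F]` (both finite) and `Z` generated by the images of `F₂` and `F₁`,
an `F`-basis of `F₁` is carried by `b` to an `F₂`-basis of `Z`; hence the matrix of the
multiplication by `b t` is the `β`-image of the matrix of the multiplication by `t`, and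
`N_{Z/F₂}(b t) = β (N_{F₁/F} t)`.
-/

set_option autoImplicit false

noncomputable section

namespace Fermat.Agent.Red.HKComm

open AlgebraicCurve

/-- Abstract form: a basis of `F₁ / F` mapped by `b` spans `Z / F₂`, degrees agree, hence
norms are compatible. -/
theorem hknc_norm_of_span {F F₁ F₂ Z : Type*} [Field F] [Field F₁] [Field F₂] [Field Z]
    [Algebra F F₁] [Algebra F₂ Z] [Module.Finite F F₁]
    (β : F →+* F₂) (b : F₁ →+* Z)
    (hcomm : ∀ f : F, b (algebraMap F F₁ f) = algebraMap F₂ Z (β f))
    (hdeg : Module.finrank F₂ Z = Module.finrank F F₁)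
    (hspan : (⊤ : Submodule F₂ Z) ≤ Submodule.span F₂ (Set.range b)) (t : F₁) :
    Algebra.norm F₂ (b t) = β (Algebra.norm F t) := by
  classical
  let e := Module.finBasis F F₁
  have hrepr : ∀ x : F₁, b x = ∑ i, β (e.repr x i) • b (e i) := by
    intro x
    conv_lhs => rw [← e.sum_repr x]
    rw [map_sum]
    refine Finset.sum_congr rfl fun i _ => ?_
    rw [Algebra.smul_def, map_mul, hcomm, Algebra.smul_def]
  have hv : (⊤ : Submodule F₂ Z) ≤ Submodule.span F₂ (Set.range fun i => b (e i)) := by
    refine hspan.trans (Submodule.span_le.2 ?_)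
    rintro _ ⟨x, rfl⟩
    rw [hrepr x]
    exact Submodule.sum_mem _ fun i _ =>
      Submodule.smul_mem _ _ (Submodule.subset_span ⟨i, rfl⟩)
  have hcard : Fintype.card (Fin (Module.finrank F F₁)) = Module.finrank F₂ Z := by
    rw [Fintype.card_fin, hdeg]
  let eZ : Module.Basis (Fin (Module.finrank F F₁)) F₂ Z :=
    basisOfTopLeSpanOfCardEqFinrank (fun i => b (e i)) hv hcard
  have heZ : ∀ i, eZ i = b (e i) := fun i => by simp [eZ]
  rw [Algebra.norm_eq_matrix_det eZ, Algebra.norm_eq_matrix_det e, RingHom.map_det]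
  congr 1
  ext i j
  rw [Algebra.leftMulMatrix_eq_repr_mul, RingHom.mapMatrix_apply, Matrix.map_apply,
    Algebra.leftMulMatrix_eq_repr_mul, heZ, ← map_mul, hrepr (t * e j)]
  simp_rw [← heZ]
  rw [eZ.repr_sum_self]

/-- **NC.** Norm compatibility under linear disjointness. -/
theorem norm_comp {K F F₁ F₂ Z : Type*} [Field K] [Field F] [Field F₁] [Field F₂] [Field Z]
    [Algebra K F] [Algebra K F₁] [Algebra K F₂] [Algebra K Z]
    (α : F →ₐ[K] F₁) (β : F →ₐ[K] F₂) (a : F₂ →ₐ[K] Z) (b : F₁ →ₐ[K] Z)
    (hcomm : a.comp β = b.comp α)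
    (hfinα : AlgebraicCurve.FiniteAlong K α) (hfina : AlgebraicCurve.FiniteAlong K a)
    (hdeg : AlgebraicCurve.finrankAlong K a = AlgebraicCurve.finrankAlong K α)
    (hgen : a.fieldRange ⊔ b.fieldRange = ⊤) (t : F₁) :
    (letI := AlgebraicCurve.algebraAlong a; Algebra.norm F₂ (b t)) =
      β (letI := AlgebraicCurve.algebraAlong α; Algebra.norm F t) := by
  let iα : Algebra F F₁ := algebraAlong α
  let ia : Algebra F₂ Z := algebraAlong a
  have : IsScalarTower K F₂ Z := isScalarTower_along a
  have : Module.Finite F F₁ := hfinα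
  have : Module.Finite F₂ Z := hfina
  have : Algebra.IsAlgebraic F₂ Z := Algebra.IsAlgebraic.of_finite F₂ Z
  have htop : ∀ z : Z, z ∈ IntermediateField.adjoin F₂ (Set.range b) := by
    intro z
    have h1 : a.fieldRange ≤ (IntermediateField.adjoin F₂ (Set.range b)).restrictScalars K := by
      rintro _ ⟨x, rfl⟩
      exact (IntermediateField.adjoin F₂ (Set.range b)).algebraMap_mem x
    have h2 : b.fieldRange ≤ (IntermediateField.adjoin F₂ (Set.range b)).restrictScalars K := by
      rintro _ ⟨x, rfl⟩
      exact IntermediateField.subset_adjoin F₂ _ ⟨x, rfl⟩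
    have hz : z ∈ (⊤ : IntermediateField K Z) := trivial
    rw [← hgen] at hz
    exact (sup_le h1 h2) hz
  have hspan : (⊤ : Submodule F₂ Z) ≤ Submodule.span F₂ (Set.range b) := by
    intro z _
    have hz := htop z
    rw [← IntermediateField.mem_toSubalgebra,
      IntermediateField.adjoin_toSubalgebra] at hz
    have hz' : z ∈ Subalgebra.toSubmodule (Algebra.adjoin F₂ (Set.range b)) := hz
    rw [Algebra.adjoin_eq_span] at hz'
    have hcl : (Submonoid.closure (Set.range b) : Set Z) = Set.range b := by
      have : Set.range b = ((MonoidHom.mrange (b : F₁ →* Z) : Submonoid Z) : Set Z) := by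
        ext x; simp
      rw [this, Submonoid.closure_eq]
    rw [hcl] at hz'
    exact hz'
  have hc : ∀ f : F, (b : F₁ →+* Z) (algebraMap F F₁ f) = algebraMap F₂ Z ((β : F →+* F₂) f) := by
    intro f
    exact (DFunLike.congr_fun hcomm f).symm
  exact hknc_norm_of_span (β : F →+* F₂) (b : F₁ →+* Z) hc hdeg hspan t

end Fermat.Agent.Red.HKComm
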