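import Fermat.Agent.Red.HKComm.Skeleton
import Fermat.Agent.Red.HKComm.BaseChange
import Fermat.Agent.Red.HKComm.NormComp
import Fermat.Agent.Red.GFFApprox
import Fermat.Agent.Red.GFFTower
import Fermat.Agent.Red.HKInputs

/-!
# P-RED, module HK-COMM: assembly

`heckeOperatorsCommuteBar_of : SquareStatement → ∀ N, HeckeOperatorsCommuteBar N`.
-/

set_option autoImplicit false

open AlgebraicCurve ModularCurve IntermediateField

noncomputable section

namespace Fermat.Agent.Red.HKComm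

open Fermat.Agent.S24 (Kbar FF jBar jdBar)
open Fermat.Agent.Red.HKMod

/-! ## congruence lemmas -/

section Congr

variable {K F F' : Type*} [Field K] [Field F] [Field F'] [Algebra K F] [Algebra K F']

theorem hkc_pullbackAlong_congr [HasPrincipalDivisors K F'] {φ φ' : F →ₐ[K] F'} (h : φ = φ')
    (hφ : φ.toRingHom.IsIntegral) (hφ' : φ'.toRingHom.IsIntegral) :
    Divisor.pullbackAlong φ hφ = Divisor.pullbackAlong φ' hφ' := by
  subst h
  rfl

theorem hkc_pushforwardAlong_congr {φ φ' : F →ₐ[K] F'} (h : φ = φ')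
    (hφ : φ.toRingHom.IsIntegral) (hφ' : φ'.toRingHom.IsIntegral) :
    Divisor.pushforwardAlong φ hφ = Divisor.pushforwardAlong φ' hφ' := by
  subst h
  rfl

end Congr

/-! ## the modular function fields -/

section Modular

/-- principal divisors of `F_M` (local instance). -/
local instance hkc_instPD (M : ℕ) [NeZero M] : HasPrincipalDivisors Kbar (FF M) :=
  hasPrincipalDivisors_FF M

/-- `F_M` is finite over `K(j)` (local instance). -/
local instance hkc_instFD (M : ℕ) [NeZero M] : FiniteDimensional Kbar⟮jBar M⟯ (FF M) :=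
  finiteDimensional_jBar M

variable {N M : ℕ} [NeZero N] [NeZero M]

/-- the degeneracy maps are finite. -/
theorem finiteAlong_degenE (e : ℕ) [NeZero e] (h : N * e ∣ M) :
    FiniteAlong Kbar (degenE e h) := by
  have : FiniteDimensional Kbar⟮degenE e h (jBar N)⟯ (FF M) :=
    finiteDimensional_adjoin_FF M _
      (transcendental_map (degenE e h) (Fermat.Agent.S24.transcendental_jBar N))
  exact finiteAlong_of_finiteDimensional_adjoin (degenE e h) (jBar N)

/-- the degeneracy maps are integral. -/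
theorem isIntegral_degenE (e : ℕ) [NeZero e] (h : N * e ∣ M) :
    (degenE e h).toRingHom.IsIntegral :=
  isIntegral_of_finiteAlong _ (finiteAlong_degenE e h)

/-- the correspondence `δ(e₁)_* δ(e₂)^*` on divisors of `F_N` through `F_M`. -/
def corrE (N M : ℕ) [NeZero N] [NeZero M] (e₁ e₂ : ℕ) [NeZero e₁] [NeZero e₂]
    (h₁ : N * e₁ ∣ M) (h₂ : N * e₂ ∣ M) : Divisor Kbar (FF N) →+ Divisor Kbar (FF N) :=
  Divisor.correspondence (degenE e₂ h₂) (degenE e₁ h₁) (isIntegral_degenE e₂ h₂)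
    (isIntegral_degenE e₁ h₁)

theorem corrE_apply (e₁ e₂ : ℕ) [NeZero e₁] [NeZero e₂]
    (h₁ : N * e₁ ∣ M) (h₂ : N * e₂ ∣ M) (D : Divisor Kbar (FF N)) :
    corrE N M e₁ e₂ h₁ h₂ D =
      Divisor.pushforwardAlong (degenE e₁ h₁) (isIntegral_degenE e₁ h₁)
        (Divisor.pullbackAlong (degenE e₂ h₂) (isIntegral_degenE e₂ h₂) D) :=
  rfl

theorem corrE_congr {e₁ e₂ e₂' : ℕ} [NeZero e₁] [NeZero e₂] [NeZero e₂'] (he : e₂ = e₂')
    (h₁ : N * e₁ ∣ M) (h₂ : N * e₂ ∣ M) (h₂' : N * e₂' ∣ M) :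
    corrE N M e₁ e₂ h₁ h₂ = corrE N M e₁ e₂' h₁ h₂' := by
  subst he
  rfl

/-- the Hecke correspondence on divisors is `corrE`. -/
theorem heckeDivBar_eq_corrE (N ℓ : ℕ) [NeZero N] [NeZero ℓ]
    (hα : HeckeAlphaBarIntegral Kbar N ℓ) (hβ : HeckeBetaBarIntegral Kbar N ℓ) :
    heckeDivBar hα hβ = corrE N (N * ℓ) 1 ℓ
      (show N * 1 ∣ N * ℓ by rw [mul_one]; exact dvd_mul_right N ℓ) (dvd_refl _) := by
  refine DFunLike.ext _ _ fun D => ?_
  show Divisor.pushforwardAlong (heckeAlphaBar Kbar N ℓ) hα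
      (Divisor.pullbackAlong (heckeBetaBar Kbar N ℓ) hβ D) = _
  rw [corrE_apply,
    hkc_pullbackAlong_congr (heckeBetaBar_eq_degenE N ℓ) hβ (isIntegral_degenE _ _),
    hkc_pushforwardAlong_congr (heckeAlphaBar_eq_degenE N ℓ) hα (isIntegral_degenE _ _)]

/-- all inertia degrees along a finite embedding are one. -/
theorem hkc_inertiaDegAlong_eq_one {K F F' : Type*} [Field K] [Field F] [Field F']
    [Algebra K F] [Algebra K F'] [IsAlgClosed K] [CharZero K] [HasPrincipalDivisors K F']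
    (φ : F →ₐ[K] F') (hφ : φ.toRingHom.IsIntegral) (hfin : FiniteAlong K φ) (x : F')
    [FiniteDimensional K⟮x⟯ F'] (w : Place K F') : w.inertiaDegAlong φ hφ = 1 := by
  let _ := algebraAlong φ
  have := isScalarTower_along φ
  have : Module.Finite F F' := hfin
  exact Fermat.Agent.Red.GFF.inertiaDeg_eq_one (K := K) (F := F) x w

/-- **Composition of two Hecke correspondences** (divisor level):
`T_p ∘ T_r = δ(1)_* δ(rp)^*` through `F_M`, `M = N p r`. -/
theorem corrE_comp_of_square (hSQ : SquareStatement) (N p r M : ℕ) [NeZero N] [NeZero p]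
    [NeZero r] [NeZero M] (hp : p.Prime) (hr : r.Prime) (hpr : p ≠ r) (hM : M = N * p * r)
    (h1p : N * 1 ∣ N * p) (hpp : N * p ∣ N * p) (h1r : N * 1 ∣ N * r) (hrr : N * r ∣ N * r)
    (h1 : N * 1 ∣ M) (hrp : N * (r * p) ∣ M) (D : Divisor Kbar (FF N)) :
    corrE N (N * p) 1 p h1p hpp (corrE N (N * r) 1 r h1r hrr D)
      = corrE N M 1 (r * p) h1 hrp D := by
  have ha : N * p * 1 ∣ M := by rw [hM, mul_one]; exact dvd_mul_right _ _
  have hb : N * r * p ∣ M := by rw [hM]; exact dvd_of_eq (by ring)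
  have hNpM : N * p ∣ M := by rw [hM]; exact dvd_mul_right _ _
  -- the square
  have hcomm : (degenE 1 ha).comp (degenE p hpp) = (degenE p hb).comp (degenE 1 h1r) := by
    rw [degenE_comp p 1 hpp ha (by rw [mul_one]; exact hNpM),
      degenE_comp 1 p h1r hb (by rw [one_mul]; exact hNpM)]
    exact degenE_congr (by rw [mul_one, one_mul]) _ _
  obtain ⟨hdeg, hgen⟩ := hSQ N (N * r) (N * p) M p r hp hr hpr rfl rfl hM h1r ha hb
  have hBC := hkbc_baseChange (degenE 1 h1r) (degenE p hpp) (degenE 1 ha) (degenE p hb)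
    (isIntegral_degenE 1 h1r) (isIntegral_degenE p hpp) (isIntegral_degenE 1 ha)
    (isIntegral_degenE p hb) hcomm
    (fun v f hf => Fermat.Agent.Red.GFF.sum_fiberAlong_ord_eq_ord_norm (degenE 1 h1r)
      (isIntegral_degenE 1 h1r) (finiteAlong_degenE 1 h1r) (jBar (N * r)) v f hf)
    (fun v f hf => Fermat.Agent.Red.GFF.sum_fiberAlong_ord_eq_ord_norm (degenE 1 ha)
      (isIntegral_degenE 1 ha) (finiteAlong_degenE 1 ha) (jBar M) v f hf)
    (Fermat.Agent.Red.GFF.exists_ord_eq_one_fiberAlong (degenE 1 h1r)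
      (isIntegral_degenE 1 h1r) (finiteAlong_degenE 1 h1r))
    (norm_comp (degenE 1 h1r) (degenE p hpp) (degenE 1 ha) (degenE p hb) hcomm
      (finiteAlong_degenE 1 h1r) (finiteAlong_degenE 1 ha) hdeg hgen)
    (hkc_inertiaDegAlong_eq_one (degenE 1 h1r) (isIntegral_degenE 1 h1r)
      (finiteAlong_degenE 1 h1r) (jBar (N * r)))
    (hkc_inertiaDegAlong_eq_one (degenE 1 ha) (isIntegral_degenE 1 ha)
      (finiteAlong_degenE 1 ha) (jBar M))
  rw [corrE_apply, corrE_apply, corrE_apply, hBC]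
  -- towers
  have e1 : (degenE 1 ha).comp (degenE 1 h1p) = degenE 1 h1 := by
    rw [degenE_comp 1 1 h1p ha (by rw [mul_one]; exact h1)]
  have e2 : (degenE p hb).comp (degenE r hrr) = degenE (r * p) hrp :=
    degenE_comp r p hrr hb hrp
  have hi1 : ((degenE 1 ha).comp (degenE 1 h1p)).toRingHom.IsIntegral := by
    rw [e1]; exact isIntegral_degenE 1 h1
  have hi2 : ((degenE p hb).comp (degenE r hrr)).toRingHom.IsIntegral := by
    rw [e2]; exact isIntegral_degenE (r * p) hrp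
  rw [← Fermat.Agent.Red.GFF.pushforwardAlong_comp (degenE 1 h1p) (degenE 1 ha)
      (isIntegral_degenE 1 h1p) (isIntegral_degenE 1 ha) hi1 (place_deg_FF (N * p))
      (place_deg_FF M),
    ← Fermat.Agent.Red.GFF.pullbackAlong_comp (degenE r hrr) (degenE p hb)
      (isIntegral_degenE r hrr) (isIntegral_degenE p hb) hi2,
    hkc_pushforwardAlong_congr e1 hi1 (isIntegral_degenE 1 h1),
    hkc_pullbackAlong_congr e2 hi2 (isIntegral_degenE (r * p) hrp)]

/-- **Commutativity of the Hecke correspondences on divisors.** -/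
theorem heckeDivBar_comm_of_square (hSQ : SquareStatement) (N p r : ℕ) [NeZero N] [NeZero p]
    [NeZero r] (hp : p.Prime) (hr : r.Prime) (hpr : p ≠ r)
    (hαp : HeckeAlphaBarIntegral Kbar N p) (hβp : HeckeBetaBarIntegral Kbar N p)
    (hαr : HeckeAlphaBarIntegral Kbar N r) (hβr : HeckeBetaBarIntegral Kbar N r)
    (D : Divisor Kbar (FF N)) :
    heckeDivBar hαp hβp (heckeDivBar hαr hβr D) = heckeDivBar hαr hβr (heckeDivBar hαp hβp D) := by
  have h1 : N * 1 ∣ N * p * r := by rw [mul_one, mul_assoc]; exact dvd_mul_right _ _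
  have hrp : N * (r * p) ∣ N * p * r := dvd_of_eq (by ring)
  have hpr' : N * (p * r) ∣ N * p * r := dvd_of_eq (by ring)
  rw [heckeDivBar_eq_corrE N p hαp hβp, heckeDivBar_eq_corrE N r hαr hβr,
    corrE_comp_of_square hSQ N p r (N * p * r) hp hr hpr rfl _ _ _ _ h1 hrp D,
    corrE_comp_of_square hSQ N r p (N * p * r) hr hp (Ne.symm hpr) (by ring) _ _ _ _ h1 hpr' D]
  exact congrFun (congrArg DFunLike.coe (corrE_congr (mul_comm r p) h1 hrp hpr')) D

/-- **HK-COMM** from the linear disjointness of the modular squares. -/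
theorem heckeOperatorsCommuteBar_of (hSQ : SquareStatement) (N : ℕ) [NeZero N] :
    HeckeOperatorsCommuteBar N := by
  intro ℓ ℓ'
  by_cases h : ℓ = ℓ'
  · subst h
    rfl
  have hne : (ℓ : ℕ) ≠ (ℓ' : ℕ) := fun h' => h (Subtype.ext h')
  have : NeZero (ℓ : ℕ) := ⟨ℓ.2.ne_zero⟩
  have : NeZero (ℓ' : ℕ) := ⟨ℓ'.2.ne_zero⟩
  refine LinearMap.ext fun x => ?_
  obtain ⟨D, rfl⟩ := Pic0.mk_surjective x
  rw [Module.End.mul_apply, Module.End.mul_apply, heckeOperatorBar_mk N ℓ' D,
    heckeOperatorBar_mk N ℓ D, heckeOperatorBar_mk N ℓ, heckeOperatorBar_mk N ℓ']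
  congr 1
  apply Subtype.ext
  exact heckeDivBar_comm_of_square hSQ N ℓ ℓ' ℓ.2 ℓ'.2 hne (heckeAlphaBarIntegral N ℓ)
    (heckeBetaBarIntegral N ℓ) (heckeAlphaBarIntegral N ℓ') (heckeBetaBarIntegral N ℓ') D

end Modular

end Fermat.Agent.Red.HKComm
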