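import Fermat.Agent.S24.MDefs
import Fermat.Prelude.Def_ModularCurve_HeckeModule

/-!
# P-RED, module HK-COMM: commutativity of the Hecke operators on `J₀(N)` — definitions

Owner: helper52.  `K = ℚ̄`, `F_M = FF M ⊆ K((q))`.

* `degenE e h : F_N →ₐ[K] F_M`, `f(q) ↦ f(q^e)`, for `N * e ∣ M`: the general degeneracy map.
  `heckeAlphaBar K N ℓ = degenE 1 _` and `heckeBetaBar K N ℓ = degenE ℓ _`.
* `degenE_comp` : composition law.

Plan of the proof of `HeckeOperatorsCommuteBar N` (`T_p = α_* β^*` on divisors):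
`β_p^* α_{r*} = a'_* b^*` (base change in the square `F_N → F_{Nr}, F_{Np} → F_{Npr}`), hence
`T_p T_r = δ(1)_* δ(pr)^*` with `δ(e) = degenE e : F_N → F_{Npr}`, which is symmetric in `p, r`.
-/

set_option autoImplicit false

open AlgebraicCurve ModularCurve IntermediateField

noncomputable section

namespace Fermat.Agent.Red.HKComm

open Fermat.Agent.S24 (Kbar FF jBar jdBar)

/-- `F_N ⊆ F_M` for `N ∣ M`. -/
theorem hkc_ffBar_le {N M : ℕ} [NeZero N] [NeZero M] (h : N ∣ M) :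
    modularFunctionFieldBar N ≤ modularFunctionFieldBar M :=
  IntermediateField.adjoin.mono _ _ _ (Set.image_mono (full_degeneracy_le h))

/-- the general degeneracy map `F_N → F_M`, `f(q) ↦ f(q^e)`, for `N * e ∣ M`. -/
def degenE {N M : ℕ} [NeZero N] [NeZero M] (e : ℕ) [NeZero e] (h : N * e ∣ M) :
    FF N →ₐ[Kbar] FF M :=
  (IntermediateField.inclusion (hkc_ffBar_le h)).comp (heckeBetaBar Kbar N e)

@[simp]
theorem coe_degenE {N M : ℕ} [NeZero N] [NeZero M] (e : ℕ) [NeZero e] (h : N * e ∣ M)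
    (x : FF N) :
    (degenE e h x : LaurentSeries Kbar) = qExpand Kbar e (x : LaurentSeries Kbar) :=
  rfl

/-- two degeneracy maps with the same exponent are equal. -/
theorem degenE_congr {N M : ℕ} [NeZero N] [NeZero M] {e e' : ℕ} [NeZero e] [NeZero e']
    (he : e = e') (h : N * e ∣ M) (h' : N * e' ∣ M) : degenE e h = degenE e' h' := by
  subst he
  rfl

theorem heckeBetaBar_eq_degenE (N ℓ : ℕ) [NeZero N] [NeZero ℓ] :
    heckeBetaBar Kbar N ℓ = degenE ℓ (dvd_refl (N * ℓ)) :=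
  AlgHom.ext fun _ => Subtype.ext rfl

theorem heckeAlphaBar_eq_degenE (N ℓ : ℕ) [NeZero N] [NeZero ℓ] :
    heckeAlphaBar Kbar N ℓ = degenE 1 (show N * 1 ∣ N * ℓ by rw [mul_one]; exact dvd_mul_right N ℓ) :=
  AlgHom.ext fun x => Subtype.ext <| by
    rw [coe_heckeAlphaBar, coe_degenE, qExpand_one_apply]

/-- composition of degeneracy maps. -/
theorem degenE_comp {N M L : ℕ} [NeZero N] [NeZero M] [NeZero L] (e₁ e₂ : ℕ) [NeZero e₁]
    [NeZero e₂] (h₁ : N * e₁ ∣ M) (h₂ : M * e₂ ∣ L) (h : N * (e₁ * e₂) ∣ L) :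
    (degenE e₂ h₂).comp (degenE e₁ h₁) = degenE (e₁ * e₂) h :=
  AlgHom.ext fun x => Subtype.ext <| by
    rw [AlgHom.comp_apply, coe_degenE, coe_degenE, coe_degenE, qExpand_qExpand]
    exact qExpand_congr (mul_comm e₂ e₁) _

/-- the degeneracy map sends `j(q^d)` to `j(q^{d e})`. -/
theorem degenE_jdBar {N M : ℕ} [NeZero N] [NeZero M] (e : ℕ) [NeZero e] (h : N * e ∣ M)
    (d : ℕ) [NeZero d] (hd : d ∣ N) (hde : d * e ∣ M) :
    degenE e h (jdBar N d hd) = jdBar M (d * e) hde := by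
  apply Subtype.ext
  rw [coe_degenE]
  show qExpand Kbar e (coeffEmb Kbar (qExpand ℚ d jq)) = coeffEmb Kbar (qExpand ℚ (d * e) jq)
  have h1 : qExpand ℚ (d * e) jq = qExpand ℚ e (qExpand ℚ d jq) := by
    rw [qExpand_qExpand]
    exact qExpand_congr (mul_comm d e) _
  rw [h1]
  ext k
  by_cases hk : (e : ℤ) ∣ k
  · obtain ⟨m, rfl⟩ := hk
    rw [qExpand_coeff_mul, coeffEmb, coeffMap_coeff, coeffMap_coeff, qExpand_coeff_mul]
  · rw [qExpand_coeff_of_not_dvd e _ hk, coeffEmb, coeffMap_coeff,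
      qExpand_coeff_of_not_dvd e _ hk, map_zero]

/-- the inclusion sends `j` to `j`. -/
theorem degenE_one_jBar {N M : ℕ} [NeZero N] [NeZero M] (h : N * 1 ∣ M) :
    degenE 1 h (jBar N) = jBar M := by
  apply Subtype.ext
  rw [coe_degenE, qExpand_one_apply]
  rfl

end Fermat.Agent.Red.HKComm
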