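import Fermat.Agent.Red.HKComm.Defs

/-!
# P-RED, module HK-COMM: frozen interfaces (owner helper52)

Every declaration is a `def … : Prop`; nothing is assumed.  Task table: `hk_tasks`.

* `GenStatement`  : `F_M = K(j, j_M)`  (distinct conjugates of `j_M` over `K(j)`: S24 germ
  embeddings `h23_E` + `mem_Gamma0_of_jAt_smul_eq` + `IfaceFin`).
* `DegStatement`  : `[F_M : F_N] * ψ(N) = ψ(M)` (tower law + `IfaceFin` at both levels).
* `PsiStatement`  : `ψ(Npr) ψ(N) = ψ(Np) ψ(Nr)` for primes `p ≠ r`.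
* `SquareStatement` : linear disjointness of the modular square
  `F_N → F_{N₁}` (inclusion), `F_N → F_{N₂}` (`q ↦ q^p`), `F_{N₂} → F_M` (inclusion),
  `F_{N₁} → F_M` (`q ↦ q^p`), where `N₁ = N r`, `N₂ = N p`, `M = N p r`.
-/

set_option autoImplicit false

open AlgebraicCurve ModularCurve IntermediateField

noncomputable section

namespace Fermat.Agent.Red.HKComm

open Fermat.Agent.S24 (Kbar FF jBar jdBar)

/-- **GEN.** `F_M = K(j(q), j(q^M))`. -/
def GenStatement : Prop :=
  ∀ (M : ℕ) [NeZero M],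
    IntermediateField.adjoin Kbar ({jBar M, jdBar M M dvd_rfl} : Set (FF M)) = ⊤

/-- **DEG.** `[F_M : F_N] * ψ(N) = ψ(M)` for `N ∣ M`. -/
def DegStatement : Prop :=
  ∀ (N M : ℕ) [NeZero N] [NeZero M] (h : N * 1 ∣ M),
    finrankAlong Kbar (degenE 1 h) * dedekindPsi N = dedekindPsi M

/-- **PSI.** -/
def PsiStatement : Prop :=
  ∀ N p r : ℕ, 0 < N → p.Prime → r.Prime → p ≠ r →
    dedekindPsi (N * p * r) * dedekindPsi N = dedekindPsi (N * p) * dedekindPsi (N * r)

/-- **SQ.** Linear disjointness of the modular square: equal degrees and generation. -/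
def SquareStatement : Prop :=
  ∀ (N N₁ N₂ M p r : ℕ) [NeZero N] [NeZero N₁] [NeZero N₂] [NeZero M] [NeZero p],
    p.Prime → r.Prime → p ≠ r → N₁ = N * r → N₂ = N * p → M = N * p * r →
    ∀ (hα : N * 1 ∣ N₁) (ha : N₂ * 1 ∣ M) (hb : N₁ * p ∣ M),
      finrankAlong Kbar (degenE 1 ha) = finrankAlong Kbar (degenE 1 hα) ∧
      (degenE 1 ha).fieldRange ⊔ (degenE p hb).fieldRange = ⊤

end Fermat.Agent.Red.HKComm
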